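/-
S52, brick (B4): Galois equivariance of the labelled 5-torsion of a polynomial family by a
pigeonhole argument.  Abstract, Mathlib only.

Setting: `k ⊆ K` fields, `k` infinite, `σ : K →+* K` fixing `k`.  A finite family of "sections"
`(X i, Y i) : K[T] × K[T]`, `i : I`.  If for every `t : k` outside a finite set `B` the ring
homomorphism `σ` maps every specialised pair `(X i (t), Y i (t))` to SOME specialised pair
`(X j (t), Y j (t))`, then ONE relabelling `m : I → I` works for all `t ∉ B` simultaneously
(and it is given by identities of polynomials).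
-/
import Mathlib

set_option autoImplicit false

namespace Fermat.Agent.S52.Equiv.Pigeonhole21

open Polynomial

variable {k K : Type*} [Field k] [Infinite k] [Field K] [Algebra k K]

/-- evaluating the `σ`-conjugate polynomial at a `σ`-fixed point. -/
theorem map_eval_of_fixed (σ : K →+* K) (P : K[X]) (a : K) (ha : σ a = a) :
    σ (P.eval a) = (P.map σ).eval a := by
  rw [Polynomial.eval_map]
  conv_rhs => rw [← ha]
  rw [Polynomial.eval₂_at_apply]

/-- **Pigeonhole relabelling.**  See the file header. -/
theorem exists_relabel {I : Type*} [Finite I] (X Y : I → K[X]) (σ : K →+* K)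
    (hσ : ∀ a : k, σ (algebraMap k K a) = algebraMap k K a)
    (B : Set k) (hB : B.Finite)
    (hstab : ∀ t : k, t ∉ B → ∀ i : I, ∃ j : I,
      σ ((X i).eval (algebraMap k K t)) = (X j).eval (algebraMap k K t) ∧
      σ ((Y i).eval (algebraMap k K t)) = (Y j).eval (algebraMap k K t)) :
    ∃ m : I → I, (∀ i, (X i).map σ = X (m i) ∧ (Y i).map σ = Y (m i)) ∧
      ∀ t : k, ∀ i : I,
        σ ((X i).eval (algebraMap k K t)) = (X (m i)).eval (algebraMap k K t) ∧
        σ ((Y i).eval (algebraMap k K t)) = (Y (m i)).eval (algebraMap k K t) := by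
  classical
  -- a relabelling for each good `t`
  have hchoice : ∀ t : {t : k // t ∉ B}, ∃ m : I → I, ∀ i : I,
      σ ((X i).eval (algebraMap k K t.1)) = (X (m i)).eval (algebraMap k K t.1) ∧
      σ ((Y i).eval (algebraMap k K t.1)) = (Y (m i)).eval (algebraMap k K t.1) := by
    intro t
    choose m hm using hstab t.1 t.2
    exact ⟨m, hm⟩
  choose mt hmt using hchoice
  -- the good parameters are infinite
  have : Infinite {t : k // t ∉ B} := by
    have : (Bᶜ : Set k).Infinite := hB.infinite_compl
    exact Set.infinite_coe_iff.mpr this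
  -- pigeonhole: some relabelling occurs infinitely often
  obtain ⟨m0, hm0⟩ := Finite.exists_infinite_fiber mt
  have hinjK : Function.Injective (algebraMap k K) := (algebraMap k K).injective
  -- the set of parameters (in `K`) where `mt = m0`
  let T : Set K := (fun t : {t : k // t ∉ B} => algebraMap k K t.1) '' (mt ⁻¹' {m0})
  have hTinf : T.Infinite := by
    have h1 : (mt ⁻¹' {m0}).Infinite := Set.infinite_coe_iff.mp hm0
    refine h1.image ?_
    intro a _ b _ hab
    exact Subtype.ext (hinjK hab)
  have hpoly : ∀ i, (X i).map σ = X (m0 i) ∧ (Y i).map σ = Y (m0 i) := by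
    intro i
    constructor
    · refine Polynomial.eq_of_infinite_eval_eq _ _ (hTinf.mono ?_)
      rintro _ ⟨t, ht, rfl⟩
      have ht' : mt t = m0 := ht
      show ((X i).map σ).eval _ = (X (m0 i)).eval _
      rw [← map_eval_of_fixed σ (X i) _ (hσ t.1), (hmt t i).1, ht']
    · refine Polynomial.eq_of_infinite_eval_eq _ _ (hTinf.mono ?_)
      rintro _ ⟨t, ht, rfl⟩
      have ht' : mt t = m0 := ht
      show ((Y i).map σ).eval _ = (Y (m0 i)).eval _
      rw [← map_eval_of_fixed σ (Y i) _ (hσ t.1), (hmt t i).2, ht']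
  refine ⟨m0, hpoly, fun t i => ⟨?_, ?_⟩⟩
  · rw [map_eval_of_fixed σ (X i) _ (hσ t), (hpoly i).1]
  · rw [map_eval_of_fixed σ (Y i) _ (hσ t), (hpoly i).2]

/-- **Equivariant transport.**  With the relabelling of `exists_relabel`: if the labelling at
`t₀` is injective, the map `ι_{t₁} ∘ ι_{t₀}⁻¹` between the specialised families commutes with
`σ`.  Stated on labels: `σ` acts on both families through the SAME `m`. -/
theorem exists_common_relabel {I : Type*} [Finite I] (X Y : I → K[X]) (σ : K →+* K)
    (hσ : ∀ a : k, σ (algebraMap k K a) = algebraMap k K a)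
    (B : Set k) (hB : B.Finite)
    (hstab : ∀ t : k, t ∉ B → ∀ i : I, ∃ j : I,
      σ ((X i).eval (algebraMap k K t)) = (X j).eval (algebraMap k K t) ∧
      σ ((Y i).eval (algebraMap k K t)) = (Y j).eval (algebraMap k K t))
    (t₀ t₁ : k) :
    ∃ m : I → I, ∀ i : I,
      (σ ((X i).eval (algebraMap k K t₀)) = (X (m i)).eval (algebraMap k K t₀) ∧
        σ ((Y i).eval (algebraMap k K t₀)) = (Y (m i)).eval (algebraMap k K t₀)) ∧
      (σ ((X i).eval (algebraMap k K t₁)) = (X (m i)).eval (algebraMap k K t₁) ∧
        σ ((Y i).eval (algebraMap k K t₁)) = (Y (m i)).eval (algebraMap k K t₁)) := by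
  obtain ⟨m, -, hm⟩ := exists_relabel X Y σ hσ B hB hstab
  exact ⟨m, fun i => ⟨hm t₀ i, hm t₁ i⟩⟩

end Fermat.Agent.S52.Equiv.Pigeonhole21
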